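import Fermat.Agent.MonomialArtin.Span
import Fermat.Agent.ArtinReciprocity.Meromorphic

/-!
# Artin's conjecture for monomial characters

By invariance under induction and reciprocity the L-series of a natural combination of induced
linear characters is, times the power of `s - 1` given by the trivial constituent, entire without
zeros on `1 ≤ re s`.
-/

set_option autoImplicit false
set_option linter.unusedSectionVars false
set_option linter.style.haveILetI false

noncomputable section

open NumberField IsDedekindDomain Finset Module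
open FA.Hecke (IsRayChar exists_heckeE exists_heckeG)
open FA.ArtinL (artinL fixedEquiv inducedFn_fixedField artinL_induced artinL_add artinL_zero)
open FA.ArtinRec (exists_hecke)
open FA.CharacterTheory FA.BrauerInduction FA.FrobeniusGroups
open scoped Classical

namespace FA.MonomialArtin

variable {K L : Type*} [Field K] [NumberField K] [Field L] [NumberField L] [Algebra K L]
  [IsGalois K L]

/-- The L-series of a linear character with its pole removed. -/
theorem exists_linear_cleared (ψ : (L ≃ₐ[K] L) →* ℂˣ) :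
    ∃ E : ℂ → ℂ, Differentiable ℂ E ∧
      (∀ s : ℂ, 1 < s.re →
        E s = (s - 1) ^ (if ψ = 1 then 1 else 0) * artinL (fun σ => (ψ σ : ℂ)) s) ∧
      ∀ s : ℂ, 1 ≤ s.re → E s ≠ 0 := by
  obtain ⟨𝔪, f, hf, hnt, h⟩ := exists_hecke ψ
  by_cases hψ : ψ = 1
  · obtain ⟨G, hG, -, hG'⟩ := exists_heckeG hf
    refine ⟨G, hG, fun s hs => ?_, fun s hs => ?_⟩
    · rw [if_pos hψ, pow_one, h s hs, hG' s hs]
    · by_cases hs1 : s = 1
      · subst hs1
        exact hf.heckeG_ne_zero (fun hn => hnt.1 hn hψ) hG hG' hs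
      · exact hf.ne_zero_of_ne_one hG hG' hs hs1
  · obtain ⟨E, hE, hE'⟩ := exists_heckeE hf (hnt.2 hψ)
    exact ⟨E, hE, fun s hs => by rw [if_neg hψ, pow_zero, one_mul, h s hs, hE' s hs],
      fun s hs => hf.heckeE_ne_zero hE hE' hs⟩

/-- **Artin's conjecture for natural combinations of induced linear characters.** -/
theorem exists_entire_of_mem {χ : (L ≃ₐ[K] L) → ℂ} (hχ : χ ∈ monomialSpan (L ≃ₐ[K] L)) :
    ∃ r : ℕ, (Nat.card (L ≃ₐ[K] L) : ℂ)⁻¹ * ∑ g, χ g = r ∧
      ∃ E : ℂ → ℂ, Differentiable ℂ E ∧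
        (∀ s : ℂ, 1 < s.re → E s = (s - 1) ^ r * artinL χ s) ∧
        ∀ s : ℂ, 1 ≤ s.re → E s ≠ 0 := by
  induction hχ using AddSubmonoid.closure_induction with
  | zero =>
    exact ⟨0, by simp, fun _ => 1, differentiable_const 1, fun s _ => by
      rw [pow_zero, artinL_zero, one_mul], fun s _ => one_ne_zero⟩
  | add a b _ _ ha hb =>
    obtain ⟨r, hr, E, hE, hEL, hE0⟩ := ha
    obtain ⟨r', hr', E', hE', hEL', hE0'⟩ := hb
    refine ⟨r + r', ?_, fun s => E s * E' s, hE.mul hE', fun s hs => ?_,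
      fun s hs => mul_ne_zero (hE0 s hs) (hE0' s hs)⟩
    · rw [Nat.cast_add, ← hr, ← hr', ← mul_add, ← sum_add_distrib]
      rfl
    · show E s * E' s = _
      rw [hEL s hs, hEL' s hs, artinL_add hs, pow_add]
      ring
  | mem a ha =>
    obtain ⟨H, ψ, rfl⟩ := ha
    set ψ' := ψ.comp (fixedEquiv H).toMonoidHom
    obtain ⟨E, hE, hEL, hE0⟩ := exists_linear_cleared ψ'
    have hiff : ψ' = 1 ↔ ψ = 1 := by
      refine ⟨fun h => MonoidHom.ext fun y => ?_, fun h => by simp [ψ', h]⟩
      obtain ⟨x, rfl⟩ := (fixedEquiv H).surjective y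
      exact DFunLike.congr_fun h x
    refine ⟨if ψ = 1 then 1 else 0, ?_, E, hE, fun s hs => ?_, hE0⟩
    · have h := pairing_induced H (fun y => (ψ y : ℂ)) (F := fun _ : L ≃ₐ[K] L => (1 : ℂ))
        fun _ _ => rfl
      simp only [pairing, mul_one] at h
      rw [h]
      by_cases hψ : ψ = 1
      · rw [if_pos hψ, hψ]
        simp [Nat.card_eq_fintype_card]
      · rw [if_neg hψ, show ∑ y : H, (ψ y : ℂ) = 0 from
          sum_hom_units_eq_zero ((Units.coeHom ℂ).comp ψ) fun he => hψ (MonoidHom.ext fun y =>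
            Units.ext (DFunLike.congr_fun he y)), mul_zero, Nat.cast_zero]
    · rw [hEL s hs, if_congr hiff rfl rfl, ← inducedFn_fixedField H fun y => (ψ y : ℂ),
        artinL_induced hs fun g x => ?_]
      · rfl
      · simp [map_mul, map_inv]

variable {V : Type*} [AddCommGroup V] [Module ℂ V] [FiniteDimensional ℂ V]

/-- **Artin's conjecture for a representation with monomial character.** -/
theorem exists_entire (ρ : Representation ℂ (L ≃ₐ[K] L) V)
    (hρ : ρ.character ∈ monomialSpan (L ≃ₐ[K] L)) :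
    ∃ E : ℂ → ℂ, Differentiable ℂ E ∧
      (∀ s : ℂ, 1 < s.re →
        E s = (s - 1) ^ finrank ℂ (Representation.invariants ρ) * artinL ρ.character s) ∧
      ∀ s : ℂ, 1 ≤ s.re → E s ≠ 0 := by
  obtain ⟨r, hr, hE⟩ := exists_entire_of_mem hρ
  letI : Invertible (Nat.card (L ≃ₐ[K] L) : ℂ) :=
    invertibleOfNonzero (Nat.cast_ne_zero.2 Nat.card_pos.ne')
  rw [Representation.card_inv_mul_sum_char_eq_finrank, Nat.cast_inj] at hr
  rwa [hr]

end FA.MonomialArtin

end
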