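import Fermat.Agent.BrauerInduction.Main
import Mathlib.GroupTheory.Nilpotent

/-!
# Monomial characters

The natural combinations of characters induced from linear characters: closed under induction,
containing the character of every monomial representation and, for a group with an abelian normal
subgroup with nilpotent quotient, every character.
-/

set_option autoImplicit false
set_option linter.style.haveILetI false
set_option linter.unusedSectionVars false

noncomputable section

universe u

open Finset Module FA.FrobeniusGroups FA.CharacterTheory FA.BrauerInduction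

namespace FA.MonomialArtin

/-- An abelian normal subgroup with nilpotent quotient. -/
def IsAbelianByNilpotent (G : Type*) [Group G] : Prop :=
  ∃ (A : Subgroup G) (_ : A.Normal),
    (∀ a ∈ A, ∀ b ∈ A, a * b = b * a) ∧ Group.IsNilpotent (G ⧸ A)

theorem isAbelianByNilpotent_of_nilpotent (G : Type*) [Group G] [Group.IsNilpotent G] :
    IsAbelianByNilpotent G :=
  ⟨⊥, inferInstance, fun a ha b hb => by
    rw [Subgroup.mem_bot.1 ha, Subgroup.mem_bot.1 hb],
    Group.nilpotent_of_surjective _ (QuotientGroup.mk'_surjective ⊥)⟩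

theorem IsAbelianByNilpotent.subgroup {G : Type*} [Group G] (h : IsAbelianByNilpotent G)
    (T : Subgroup G) : IsAbelianByNilpotent T := by
  obtain ⟨A, hA, hcomm, hnil⟩ := h
  refine ⟨A.subgroupOf T, inferInstance, fun a ha b hb => Subtype.ext (hcomm a ha b hb), ?_⟩
  haveI := hnil
  let f : T ⧸ A.subgroupOf T →* G ⧸ A := QuotientGroup.map _ _ T.subtype le_rfl
  refine Subgroup.isNilpotent_of_ker_le_center f fun x hx => ?_
  induction x using QuotientGroup.induction_on with
  | H t =>
    rw [show (QuotientGroup.mk t : T ⧸ A.subgroupOf T) = 1 from (QuotientGroup.eq_one_iff t).2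
      ((QuotientGroup.eq_one_iff (N := A) (t : G)).1 hx)]
    exact one_mem _

section step

variable {G : Type*} [Group G] [Fintype G] {V : Type*} [AddCommGroup V] [Module ℂ V]
  [FiniteDimensional ℂ V] (ρ : Representation ℂ G V)

open scoped Classical in
/-- An irreducible representation of degree `> 1` of such a group is induced. -/
theorem exists_induced [Representation.IsIrreducible ρ] (hG : IsAbelianByNilpotent G)
    (hdim : finrank ℂ V ≠ 1) :
    ∃ (T : Subgroup G) (W : Subrepresentation (ρ.comp T.subtype : Representation ℂ T V)), T ≠ ⊤ ∧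
      ρ.character = induced T W.toRepresentation.character := by
  obtain ⟨A, hA, hAc, hnil⟩ := hG
  haveI := hA
  haveI := hnil
  by_cases hC : ∃ a ∈ A, ∀ c : ℂ, ρ a ≠ c • 1
  · exact exists_induced_of_normal ρ hA (fun a ha b hb => by
      rw [← map_mul, ← map_mul, hAc a ha b hb]) hC
  push Not at hC
  set r : G →* (Module.End ℂ V)ˣ := MonoidHom.toHomUnits ρ
  set π : G →* r.range ⧸ Subgroup.center r.range :=
    (QuotientGroup.mk' _).comp r.rangeRestrict
  have hπ : Function.Surjective π :=
    (QuotientGroup.mk'_surjective _).comp r.rangeRestrict_surjective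
  have hscalar : ∀ g, (∃ c : ℂ, ρ g = c • 1) → π g = 1 := fun g ⟨c, hc⟩ => by
    refine (QuotientGroup.eq_one_iff _).2 (Subgroup.mem_center_iff.2 ?_)
    rintro ⟨_, k, rfl⟩
    refine Subtype.ext (Units.ext ?_)
    show ρ k * ρ g = ρ g * ρ k
    rw [hc, mul_smul_comm, smul_mul_assoc, mul_one, one_mul]
  haveI : Group.IsNilpotent (r.range ⧸ Subgroup.center r.range) :=
    Group.nilpotent_of_surjective (QuotientGroup.lift A π fun a ha => hscalar a (hC a ha))
      (QuotientGroup.lift_surjective_of_surjective A π hπ _)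
  by_cases hab : ∀ g k, ρ g * ρ k = ρ k * ρ g
  · exfalso
    refine hdim ?_
    have hsc : ∀ g, ∃ c : ℂ, ρ g = c • 1 := fun g => by
      obtain ⟨w, hw⟩ :=
        (Representation.IsIrreducible.algebraMap_intertwiningMap_bijective_of_isAlgClosed
          (ρ := ρ)).2 ⟨ρ g, fun k => hab g k⟩
      exact ⟨w, ((congrArg Representation.IntertwiningMap.toLinearMap hw).symm).trans
        (Algebra.algebraMap_eq_smul_one w)⟩
    haveI : Nontrivial V :=
      Module.nontrivial_of_finrank_pos (Nat.pos_of_ne_zero (finrank_ne_zero ρ))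
    obtain ⟨v, hv⟩ := exists_ne (0 : V)
    set P : Subrepresentation ρ := ⟨Submodule.span ℂ {v}, fun g w hw => by
      obtain ⟨c, hc⟩ := hsc g
      rw [hc, LinearMap.smul_apply, Module.End.one_apply]
      exact Submodule.smul_mem _ _ hw⟩
    rcases eq_bot_or_eq_top P with h | h
    · exact absurd (show v ∈ (⊥ : Subrepresentation ρ) from
        h ▸ Submodule.mem_span_singleton_self v) hv
    · have ht : Submodule.span ℂ {v} = (⊤ : Submodule ℂ V) :=
        congrArg Subrepresentation.toSubmodule h
      rw [← finrank_top ℂ V, ← ht, finrank_span_singleton hv]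
  haveI : Nontrivial (r.range ⧸ Subgroup.center r.range) := by
    by_contra hnt
    haveI := not_nontrivial_iff_subsingleton.1 hnt
    refine hab fun g k => ?_
    have h := (QuotientGroup.eq_one_iff (r.rangeRestrict g)).1
      (Subsingleton.elim (α := r.range ⧸ Subgroup.center r.range) _ _)
    have h2 := Subgroup.mem_center_iff.1 h (r.rangeRestrict k)
    exact (congrArg (fun z : r.range => ((z : (Module.End ℂ V)ˣ) : Module.End ℂ V)) h2).symm
  obtain ⟨⟨z, hz⟩, hz1⟩ := Subgroup.ne_bot_iff_exists_ne_one.1
    (Group.IsNilpotent.center_ne_bot (G := r.range ⧸ Subgroup.center r.range))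
  haveI hzn : (Subgroup.zpowers z).Normal := ⟨fun a ha g => by
    obtain ⟨i, rfl⟩ := Subgroup.mem_zpowers_iff.1 ha
    rw [Subgroup.mem_center_iff.1 (Subgroup.zpow_mem _ hz i) g, mul_inv_cancel_right]
    exact Subgroup.zpow_mem _ (Subgroup.mem_zpowers z) i⟩
  obtain ⟨g, hg⟩ := hπ z
  refine exists_induced_of_normal ρ (A := (Subgroup.zpowers z).comap π) (hzn.comap π)
    (fun a ha b hb => ?_) ?_
  · have hform : ∀ a ∈ (Subgroup.zpowers z).comap π, ∃ i : ℤ, ∃ c ∈ Subgroup.center r.range,
        r.rangeRestrict a = r.rangeRestrict g ^ i * c := fun a ha => by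
      obtain ⟨i, hi⟩ := Subgroup.mem_zpowers_iff.1 ha
      refine ⟨i, (r.rangeRestrict g ^ i)⁻¹ * r.rangeRestrict a, ?_, by rw [mul_inv_cancel_left]⟩
      rw [← QuotientGroup.eq, QuotientGroup.mk_zpow]
      exact (congrArg (· ^ i) hg).trans hi
    obtain ⟨i, c, hc, ha'⟩ := hform a ha
    obtain ⟨j, e, he, hb'⟩ := hform b hb
    have hcom : r.rangeRestrict a * r.rangeRestrict b = r.rangeRestrict b * r.rangeRestrict a := by
      have hce : ∀ x, Commute c x := fun x => (Subgroup.mem_center_iff.1 hc x).symm
      have hee : ∀ x, Commute e x := fun x => (Subgroup.mem_center_iff.1 he x).symm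
      rw [ha', hb']
      exact (((Commute.zpow_zpow_self _ i j).mul_right ((hee _).symm)).mul_left
        ((hce _).mul_right (hce _))).eq
    exact congrArg (fun z : r.range => ((z : (Module.End ℂ V)ˣ) : Module.End ℂ V)) hcom
  · refine ⟨g, by rw [Subgroup.mem_comap, hg]; exact Subgroup.mem_zpowers z, fun c hc => ?_⟩
    exact hz1 (Subtype.ext ((hg.symm).trans (hscalar g ⟨c, hc⟩)))

end step

/-- **The natural combinations of induced linear characters.** -/
def monomialSpan (G : Type*) [Group G] [Fintype G] : AddSubmonoid (G → ℂ) :=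
  AddSubmonoid.closure
    {f | ∃ (H : Subgroup G) (ψ : H →* ℂˣ), f = induced H fun y => (ψ y : ℂ)}

variable {G : Type*} [Group G] [Fintype G]

theorem linear_mem (ψ : G →* ℂˣ) : (fun x => (ψ x : ℂ)) ∈ monomialSpan G := by
  refine AddSubmonoid.subset_closure ⟨⊤, ψ.comp (⊤ : Subgroup G).subtype, funext fun x => ?_⟩
  rw [induced_eq, sum_congr rfl fun g _ => show zext ⊤
      (fun y : (⊤ : Subgroup G) => (((ψ.comp (⊤ : Subgroup G).subtype) y : ℂˣ) : ℂ))
      (g * x * g⁻¹) = (ψ x : ℂ) from by
    rw [zext, dif_pos (Subgroup.mem_top _)]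
    simp [mul_inv_cancel_comm],
    sum_const, card_univ, nsmul_eq_mul, ← Nat.card_eq_fintype_card,
    Nat.card_congr Subgroup.topEquiv.toEquiv,
    inv_mul_cancel_left₀ (Nat.cast_ne_zero.2 Nat.card_pos.ne')]

theorem induced_mem_monomialSpan (T : Subgroup G) [Fintype T] {φ : T → ℂ}
    (hφ : φ ∈ monomialSpan T) : induced T φ ∈ monomialSpan G := by
  induction hφ using AddSubmonoid.closure_induction with
  | zero => rw [← inducedHom_apply, map_zero]; exact zero_mem _
  | add a b _ _ ha hb => rw [← inducedHom_apply, map_add]; exact add_mem ha hb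
  | mem a ha =>
    obtain ⟨E, ψ, rfl⟩ := ha
    obtain rfl := Subsingleton.elim ‹Fintype T› (Fintype.ofFinite T)
    refine AddSubmonoid.subset_closure ⟨E.map T.subtype,
      ψ.comp (E.equivMapOfInjective T.subtype T.subtype_injective).symm.toMonoidHom, ?_⟩
    convert induced_induced T E fun y => (ψ y : ℂ)
    rfl

/-- Characters are natural combinations of irreducible ones. -/
theorem character_mem_of_irr {S : AddSubmonoid (G → ℂ)} (h : ∀ χ ∈ irr G, χ ∈ S) {V : Type*}
    [AddCommGroup V] [Module ℂ V] [FiniteDimensional ℂ V] (σ : Representation ℂ G V) :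
    σ.character ∈ S := by
  choose! m hm using fun (χ : G → ℂ) (hχ : χ ∈ irr G) => exists_nat_pairing σ hχ
  rw [show σ.character = ∑ χ ∈ irr G, m χ • χ from funext fun x => by
    rw [expansion (fun g y => σ.char_conj y g) x, Finset.sum_apply]
    exact sum_congr rfl fun χ hχ => by rw [hm χ hχ, Pi.smul_apply, nsmul_eq_mul]]
  exact AddSubmonoid.sum_mem _ fun χ hχ => AddSubmonoid.nsmul_mem _ (h χ hχ) _

/-- **Every irreducible character of such a group is induced from a linear one.** -/
theorem irr_mem_monomialSpan : ∀ (n : ℕ) (G : Type u) [Group G] [Fintype G], Nat.card G = n →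
    IsAbelianByNilpotent G → ∀ χ ∈ irr G, χ ∈ monomialSpan G := by
  classical
  intro n
  induction n using Nat.strong_induction_on with
  | _ n ih =>
    intro G _ _ hn hG χ hχ
    subst hn
    by_cases h1 : χ 1 = 1
    · obtain ⟨lam, rfl⟩ := exists_hom_of_one hχ h1
      exact linear_mem lam
    obtain ⟨U, hU, rfl⟩ := exists_of_mem_irr hχ
    haveI := hU
    obtain ⟨T, S, hT, he⟩ := exists_induced U.toRepresentation hG fun h => h1 (by
      rw [Representation.char_one, h, Nat.cast_one])
    rw [he]
    refine induced_mem_monomialSpan T ?_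
    have hlt : Nat.card T < Nat.card G :=
      (Subgroup.card_le_card_group T).lt_of_ne fun h => hT (Subgroup.eq_top_of_card_eq T h)
    exact character_mem_of_irr (fun φ hφ => ih _ hlt T rfl (hG.subgroup T) φ hφ)
      (V := S.toSubmodule) S.toRepresentation

/-- **All characters of such a group are monomial.** -/
theorem character_mem_monomialSpan (hG : IsAbelianByNilpotent G) {V : Type*} [AddCommGroup V]
    [Module ℂ V] [FiniteDimensional ℂ V] (σ : Representation ℂ G V) :
    σ.character ∈ monomialSpan G :=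
  character_mem_of_irr (fun χ hχ => irr_mem_monomialSpan _ G rfl hG χ hχ) σ

/-- The multiplicities in an induced linear character are natural numbers. -/
theorem exists_nat_pairing_induced (H : Subgroup G) (ψ : H →* ℂˣ) {χ : G → ℂ} (hχ : χ ∈ irr G) :
    ∃ m : ℕ, pairing (induced H fun y => (ψ y : ℂ)) χ = m := by
  classical
  obtain ⟨U, -, rfl⟩ := exists_of_mem_irr hχ
  rw [pairing_induced H _ fun g x => U.toRepresentation.char_conj x g, ← linRep_character ψ]
  haveI : Invertible (Nat.card H : ℂ) :=
    invertibleOfNonzero (Nat.cast_ne_zero.2 Nat.card_pos.ne')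
  exact ⟨_, Representation.card_inv_mul_sum_char_mul_char_eq_finrank
    (U.toRepresentation.comp H.subtype : Representation ℂ H _) (linRep ψ)⟩

/-- **An irreducible character of such a group is induced from a linear character.** -/
theorem exists_eq_induced (hG : IsAbelianByNilpotent G) {V : Type*} [AddCommGroup V]
    [Module ℂ V] [FiniteDimensional ℂ V] (σ : Representation ℂ G V)
    [Representation.IsIrreducible σ] :
    ∃ (H : Subgroup G) (ψ : H →* ℂˣ), σ.character = induced H fun y => (ψ y : ℂ) := by
  classical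
  obtain ⟨l, hl, hsum⟩ := AddSubmonoid.exists_list_of_mem_closure (character_mem_monomialSpan hG σ)
  have hone : ∀ f ∈ l, ∃ χ ∈ irr G, ∃ m : ℕ, pairing f χ = m ∧ m ≠ 0 := fun f hf => by
    obtain ⟨H, ψ, rfl⟩ := hl f hf
    by_contra! hcon
    have h1 : induced H (fun y => (ψ y : ℂ)) 1 ≠ 0 := by
      rw [induced_eq, sum_congr rfl fun g _ => show zext H (fun y => (ψ y : ℂ)) (g * 1 * g⁻¹) = 1 by
        rw [mul_one, mul_inv_cancel, ← Subgroup.coe_one H, zext_coe, map_one, Units.val_one],
        sum_const, card_univ, nsmul_eq_mul, mul_one, ← Nat.card_eq_fintype_card]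
      exact mul_ne_zero (inv_ne_zero (Nat.cast_ne_zero.2 Nat.card_pos.ne'))
        (Nat.cast_ne_zero.2 Nat.card_pos.ne')
    refine h1 ((expansion (induced_conj H _) 1).trans (sum_eq_zero fun χ hχ => ?_))
    obtain ⟨m, hm⟩ := exists_nat_pairing_induced H ψ hχ
    rw [hm, hcon χ hχ m hm, Nat.cast_zero, zero_mul]
  choose! χ hχ m hm hm0 using hone
  have hσ := character_mem_irr σ
  have hadd : ∀ (t : List (G → ℂ)) (φ : G → ℂ), (∀ f ∈ t, f ∈ l) → φ ∈ irr G →
      ∃ k : ℕ, pairing t.sum φ = k ∧ (t.filter fun f => χ f = φ).length ≤ k := by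
    intro t φ ht hφ
    induction t with
    | nil => exact ⟨0, by simp [pairing], le_refl _⟩
    | cons f t ih =>
      obtain ⟨k, hk, hle⟩ := ih fun g hg => ht g (List.mem_cons_of_mem _ hg)
      obtain ⟨H, ψ, rfl⟩ := hl f (ht f List.mem_cons_self)
      obtain ⟨j, hj⟩ := exists_nat_pairing_induced H ψ hφ
      refine ⟨j + k, ?_, ?_⟩
      · rw [List.sum_cons, Nat.cast_add, ← hj, ← hk]
        simp only [pairing, Pi.add_apply, add_mul, sum_add_distrib, mul_add]
      · by_cases hf : χ (induced H fun y => (ψ y : ℂ)) = φ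
        · rw [List.filter_cons_of_pos (by simpa using hf), List.length_cons]
          have h2 := hm _ (ht _ List.mem_cons_self)
          rw [hf, hj] at h2
          have := hm0 _ (ht _ List.mem_cons_self)
          have := (Nat.cast_inj (R := ℂ)).1 h2
          omega
        · rw [List.filter_cons_of_neg (by simpa using hf)]
          omega
  have hall : ∀ f ∈ l, χ f = σ.character := fun f hf => by_contra fun hne => by
    obtain ⟨k, hk, hle⟩ := hadd l (χ f) (fun _ => id) (hχ f hf)
    rw [hsum, pairing_irr hσ (hχ f hf), if_neg (Ne.symm hne), ← Nat.cast_zero, Nat.cast_inj] at hk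
    have : 0 < (l.filter fun g => χ g = χ f).length :=
      List.length_pos_of_mem (List.mem_filter.2 ⟨hf, by simp⟩)
    omega
  obtain ⟨k, hk, hle⟩ := hadd l σ.character (fun _ => id) hσ
  rw [hsum, pairing_irr hσ hσ, if_pos rfl, ← Nat.cast_one, Nat.cast_inj] at hk
  rw [List.filter_eq_self.2 fun f hf => by simpa using hall f hf, ← hk] at hle
  rcases l with _ | ⟨f, _ | ⟨g, l⟩⟩
  · refine absurd (congrFun hsum 1).symm ?_
    rw [Representation.char_one]
    exact Nat.cast_ne_zero.2 (finrank_ne_zero σ)
  · obtain ⟨H, ψ, rfl⟩ := hl f List.mem_cons_self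
    exact ⟨H, ψ, by rw [← hsum, List.sum_cons, List.sum_nil, add_zero]⟩
  · simp only [List.length_cons] at hle
    omega

section monomial

variable {V : Type*} [AddCommGroup V] [Module ℂ V] [FiniteDimensional ℂ V]

open scoped Classical in
/-- The fixed-point sums of a scalar cocycle on a permutation action. -/
theorem sum_fixed_mem {ι : Type*} [Fintype ι] [MulAction G ι] (c : G → ι → ℂ)
    (hone : ∀ i, c 1 i = 1) (hmul : ∀ g h i, c (g * h) i = c h i * c g (h • i)) :
    (fun x => ∑ i, if x • i = i then c x i else 0) ∈ monomialSpan G := by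
  let ψ : ∀ i : ι, MulAction.stabilizer G i →* ℂˣ := fun i => MonoidHom.toHomUnits
    { toFun := fun h => c h i
      map_one' := hone i
      map_mul' := fun h k => by
        show c (h * k : G) i = _
        rw [hmul h k i, show (k : G) • i = i from k.2, mul_comm] }
  have hψ : ∀ i h, (ψ i h : ℂ) = c h i := fun i h => rfl
  let F : G → ι → ℂ := fun x i => if x • i = i then c x i else 0
  have hterm : ∀ (i : ι) (x g : G), zext (MulAction.stabilizer G i) (fun y => (ψ i y : ℂ))
      (g * x * g⁻¹) = F x (g⁻¹ • i) := fun i x g => by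
    have hiff : g * x * g⁻¹ ∈ MulAction.stabilizer G i ↔ x • (g⁻¹ • i) = g⁻¹ • i := by
      rw [MulAction.mem_stabilizer_iff, mul_smul, mul_smul, ← eq_inv_smul_iff]
    by_cases h : x • (g⁻¹ • i) = g⁻¹ • i
    · rw [zext, dif_pos (hiff.2 h), hψ]
      simp only [F, if_pos h]
      show c (g * x * g⁻¹) i = _
      rw [mul_assoc, hmul g (x * g⁻¹) i, hmul x g⁻¹ i, mul_smul, h]
      have h2 := hmul g g⁻¹ i
      rw [mul_inv_cancel, hone i] at h2
      rw [mul_right_comm, ← h2, one_mul]
    · rw [zext_of_notMem _ _ (fun hm => h (hiff.1 hm))]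
      simp only [F, if_neg h]
  haveI : Fintype (MulAction.orbitRel.Quotient G ι) := Fintype.ofFinite _
  rw [show (fun x => ∑ i, if x • i = i then c x i else 0) = ∑ ω : MulAction.orbitRel.Quotient G ι,
      induced (MulAction.stabilizer G ω.out) (fun y => (ψ ω.out y : ℂ)) from funext fun x => ?_]
  · exact AddSubmonoid.sum_mem _ fun ω _ => AddSubmonoid.subset_closure ⟨_, ψ ω.out, rfl⟩
  show ∑ i, F x i = _
  rw [Finset.sum_apply, ← sum_fiberwise univ
    (fun i => (Quotient.mk'' i : MulAction.orbitRel.Quotient G ι))]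
  refine sum_congr rfl fun ω _ => ?_
  set i₀ := ω.out
  rw [induced_eq, sum_congr rfl fun g _ => hterm i₀ x g,
    Fintype.sum_equiv (Equiv.inv G) (fun g => F x (g⁻¹ • i₀)) (fun g => F x (g • i₀)) fun g => rfl,
    eq_inv_mul_iff_mul_eq₀ (Nat.cast_ne_zero.2 Nat.card_pos.ne'), mul_sum,
    ← sum_fiberwise_of_maps_to (g := fun g : G => g • i₀)
      (t := univ.filter fun i => (Quotient.mk'' i : MulAction.orbitRel.Quotient G ι) = ω)
      fun g _ => mem_filter.2 ⟨mem_univ _, by
        conv_rhs => rw [← Quotient.out_eq' ω]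
        exact Quotient.eq''.2 ⟨g, rfl⟩⟩]
  refine sum_congr rfl fun i hi => ?_
  obtain ⟨g₀, rfl⟩ : ∃ g : G, g • i₀ = i := by
    have h := (mem_filter.1 hi).2
    rw [← Quotient.out_eq' ω] at h
    exact Quotient.eq''.1 h
  rw [sum_congr rfl fun g hg => by rw [(mem_filter.1 hg).2], sum_const, nsmul_eq_mul]
  congr 1
  rw [← Nat.card_eq_finsetCard, Nat.cast_inj]
  exact Nat.card_congr
    { toFun := fun t => ⟨g₀ * t.1, mem_filter.2 ⟨mem_univ _, by
        rw [mul_smul, MulAction.mem_stabilizer_iff.1 t.2]⟩⟩
      invFun := fun g => ⟨g₀⁻¹ * g.1, MulAction.mem_stabilizer_iff.2 (by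
        rw [mul_smul, (mem_filter.1 g.2).2, inv_smul_smul])⟩
      left_inv := fun t => Subtype.ext (inv_mul_cancel_left _ _)
      right_inv := fun g => Subtype.ext (mul_inv_cancel_left _ _) }


/-- **The character of a monomial representation**: a basis permuted up to scalars. -/
theorem character_mem_of_basis (ρ : Representation ℂ G V) {ι : Type*} (b : Module.Basis ι ℂ V)
    (hb : ∀ g i, ∃ j, ∃ c : ℂ, ρ g (b i) = c • b j) : ρ.character ∈ monomialSpan G := by
  classical
  haveI : Fintype ι := FiniteDimensional.fintypeBasisIndex b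
  choose σ c hc using hb
  have hinv : ∀ g v, ρ g⁻¹ (ρ g v) = v := fun g v => by
    rw [← Module.End.mul_apply, ← map_mul, inv_mul_cancel, map_one, Module.End.one_apply]
  have hc0 : ∀ g i, c g i ≠ 0 := fun g i h => b.ne_zero i (by
    rw [← hinv g (b i), hc, h, zero_smul, map_zero])
  have huniq : ∀ (i j : ι) (x y : ℂ), x ≠ 0 → x • b i = y • b j → i = j ∧ x = y := by
    intro i j x y hx h
    have h1 := congrArg (fun v => b.repr v i) h
    simp only [map_smul, Module.Basis.repr_self, Finsupp.smul_apply, smul_eq_mul,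
      Finsupp.single_eq_same, mul_one] at h1
    by_cases hij : i = j
    · subst hij
      rw [Finsupp.single_eq_same, mul_one] at h1
      exact ⟨rfl, h1⟩
    · rw [Finsupp.single_eq_of_ne hij, mul_zero] at h1
      exact absurd h1 hx
  have hone : ∀ i, σ 1 i = i ∧ c 1 i = 1 := fun i => huniq _ _ _ _ (hc0 1 i) (by
    rw [← hc, map_one, Module.End.one_apply, one_smul])
  have hmul : ∀ g h i, σ (g * h) i = σ g (σ h i) ∧ c (g * h) i = c h i * c g (σ h i) :=
    fun g h i => huniq _ _ _ _ (hc0 _ i) (by
      rw [← hc, map_mul, Module.End.mul_apply, hc, map_smul, hc, smul_smul])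
  letI : MulAction G ι :=
    { smul := σ
      one_smul := fun i => (hone i).1
      mul_smul := fun g h i => (hmul g h i).1 }
  have hsm : ∀ g i, g • i = σ g i := fun g i => rfl
  rw [show ρ.character = fun x => ∑ i, if x • i = i then c x i else 0 from funext fun x => ?_]
  · exact sum_fixed_mem c (fun i => (hone i).2) fun g h i => (hmul g h i).2
  rw [Representation.character, LinearMap.trace_eq_matrix_trace ℂ b, Matrix.trace]
  refine sum_congr rfl fun i _ => ?_
  rw [Matrix.diag_apply, LinearMap.toMatrix_apply, hc, map_smul, Finsupp.smul_apply,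
    Module.Basis.repr_self, smul_eq_mul, Finsupp.single_apply]
  simp only [hsm, mul_ite, mul_one, mul_zero]

end monomial

end FA.MonomialArtin

end
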